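/-
ALPHA / S32 package (d) (helper4), part 1: **the Kummer isomorphism**
`X_m ≃ tWsub ℚ̄ N m / m-th powers ≃ J₀(N)[m]`, `G_ℚ`-equivariantly.

* `alpt_class_torsion`  : `m • [div(y)/m] = 0`;
* `alpt_kummer_ker`     : `[div(y)/m] = 0 ↔ y` is an `m`-th power (function field of `X₀(N)` over `ℚ̄`);
* `alptKumW N m hm`     : `tWsub ℚ̄ N m →* Multiplicative J₀(N)[m]`;
* `alptKumX N m hm`     : `X_m →* Multiplicative J₀(N)[m]`, injective, surjective, intertwining
  `(tddDescent N).galX hm σ` with `σ •`.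
-/
import Fermat.Agent.Lib.Alpha.Fin.Tors
import Fermat.Agent.Lib.T1.Mono.GalX
import Fermat.Agent.Lib.T3.Pull.Torsion

set_option autoImplicit false
set_option linter.style.haveILetI false
set_option linter.unusedSectionVars false

namespace Fermat.Agent.Alpha

open AlgebraicCurve AlgebraicCurve.SemilinearAut ModularCurve Fermat.Agent.T1 Fermat.Agent.T3
open Fermat.Agent.S24Lib

local notation "Kbar" => AlgebraicClosure ℚ
local notation "GQ" => (AlgebraicClosure ℚ ≃ₐ[ℚ] AlgebraicClosure ℚ)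

section General

variable {K F : Type*} [Field K] [Field F] [Algebra K F] [HasPrincipalDivisors K F]

/-- the Kummer class is `m`-torsion -/
theorem alpt_class_torsion {m : ℕ} (hm : m ≠ 0) (y : Fˣ)
    (hy : ∀ v : Place K F, (m : ℤ) ∣ v.ord (y : F)) : (m : ℤ) • alpfClass hm y hy = 0 := by
  unfold alpfClass Pic0.mk
  rw [← QuotientAddGroup.mk_zsmul, QuotientAddGroup.eq_zero_iff, AddSubgroup.mem_addSubgroupOf]
  refine ⟨(y : F), y.ne_zero, fun v => ?_⟩
  show ((m : ℤ) • alpfDivQuot (K := K) m y) v = _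
  rw [alpf_smul_divQuot hy, alpfDiv_apply]

/-- if the Kummer class vanishes then `y` is an `m`-th power up to a function without zeros and
poles -/
theorem alpt_class_eq_zero {m : ℕ} (hm : m ≠ 0) (y : Fˣ)
    (hy : ∀ v : Place K F, (m : ℤ) ∣ v.ord (y : F)) (h : alpfClass hm y hy = 0) :
    ∃ g : F, g ≠ 0 ∧ ∀ v : Place K F, v.ord ((y : F) * (g ^ m)⁻¹) = 0 := by
  unfold alpfClass Pic0.mk at h
  rw [QuotientAddGroup.eq_zero_iff, AddSubgroup.mem_addSubgroupOf] at h
  obtain ⟨g, hg0, hg⟩ := h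
  refine ⟨g, hg0, fun v => ?_⟩
  have h1 : v.ord g = v.ord (y : F) / (m : ℤ) := by
    rw [← hg v]
    exact alpfDivQuot_apply m y v
  have hgm0 : g ^ m ≠ 0 := pow_ne_zero m hg0
  rw [v.ord_mul y.ne_zero (inv_ne_zero hgm0), v.ord_inv, ← zpow_natCast, v.ord_zpow, h1,
    Int.mul_ediv_cancel' (hy v)]
  ring

end General

section Modular

variable (N : ℕ) [NeZero N]

/-- **the kernel of the Kummer map consists of the `m`-th powers** -/
theorem alpt_kummer_ker (m : ℕ) (hm : m ≠ 0) (y : (↥(modularFunctionFieldBar N))ˣ)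
    (hy : ∀ v : Place Kbar ↥(modularFunctionFieldBar N),
      (m : ℤ) ∣ v.ord (y : ↥(modularFunctionFieldBar N))) :
    alpfClass hm y hy = 0 ↔ ∃ t : (↥(modularFunctionFieldBar N))ˣ, y = t ^ m := by
  constructor
  · intro h
    obtain ⟨g, hg0, hu⟩ := alpt_class_eq_zero hm y hy h
    obtain ⟨c, hc⟩ := t3p_const_of_ord_eq_zero (t3h_gen N) hu
    have hgm0 : g ^ m ≠ 0 := pow_ne_zero m hg0
    have hc0 : c ≠ 0 := by
      rintro rfl
      rw [map_zero] at hc
      exact (mul_ne_zero y.ne_zero (inv_ne_zero hgm0)) hc.symm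
    obtain ⟨c₁, hc₁⟩ := IsAlgClosed.exists_pow_nat_eq c (Nat.pos_of_ne_zero hm)
    have hc₁0 : c₁ ≠ 0 := by
      rintro rfl
      rw [zero_pow hm] at hc₁
      exact hc0 hc₁.symm
    have ht0 : algebraMap Kbar ↥(modularFunctionFieldBar N) c₁ * g ≠ 0 :=
      mul_ne_zero ((map_ne_zero _).mpr hc₁0) hg0
    refine ⟨Units.mk0 _ ht0, ?_⟩
    apply Units.ext
    rw [Units.val_pow_eq_pow_val, Units.val_mk0, mul_pow, ← map_pow, hc₁, hc, mul_assoc,
      inv_mul_cancel₀ hgm0, mul_one]
  · rintro ⟨t, rfl⟩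
    exact alpfClass_pow hm t hy

/-- the Kummer map on the Kummer group -/
noncomputable def alptKumW (m : ℕ) (hm : m ≠ 0) :
    tWsub Kbar N m →* Multiplicative ↥(Submodule.torsionBy ℤ (JZero N) (m : ℤ)) where
  toFun y := Multiplicative.ofAdd ⟨alpfClass hm y.1 y.2,
    (Submodule.mem_torsionBy_iff _ _).mpr (alpt_class_torsion hm y.1 y.2)⟩
  map_one' := by
    apply Multiplicative.toAdd.injective
    apply Subtype.ext
    show alpfClass hm (1 : tWsub Kbar N m).1 (1 : tWsub Kbar N m).2 = 0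
    have h := alpfClass_pow (K := Kbar) hm (1 : (↥(modularFunctionFieldBar N))ˣ)
      (by rw [one_pow]; exact (1 : tWsub Kbar N m).2)
    have h2 : alpfClass hm (1 : tWsub Kbar N m).1 (1 : tWsub Kbar N m).2 =
        alpfClass hm ((1 : (↥(modularFunctionFieldBar N))ˣ) ^ m)
          (by rw [one_pow]; exact (1 : tWsub Kbar N m).2) := by
      congr 1
      rw [one_pow]
      rfl
    rw [h2, h]
  map_mul' y y' := by
    apply Multiplicative.toAdd.injective
    apply Subtype.ext
    exact alpfClass_mul hm y.1 y'.1 y.2 y'.2 (y * y').2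

theorem alptKumW_coe (m : ℕ) (hm : m ≠ 0) (y : tWsub Kbar N m) :
    ((Multiplicative.toAdd (alptKumW N m hm y) : ↥(Submodule.torsionBy ℤ (JZero N) (m : ℤ))) :
      JZero N) = alpfClass hm y.1 y.2 := rfl

theorem alptKumW_eq_one_iff (m : ℕ) (hm : m ≠ 0) (y : tWsub Kbar N m) :
    alptKumW N m hm y = 1 ↔ y ∈ tdmPowSub Kbar N m := by
  have h1 : alptKumW N m hm y = 1 ↔ alpfClass hm y.1 y.2 = 0 := by
    constructor
    · intro h
      have := congrArg (fun z => ((Multiplicative.toAdd z :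
        ↥(Submodule.torsionBy ℤ (JZero N) (m : ℤ))) : JZero N)) h
      exact this
    · intro h
      apply Multiplicative.toAdd.injective
      apply Subtype.ext
      exact h
  rw [h1, alpt_kummer_ker N m hm y.1 y.2, mem_tdmPowSub]
  constructor
  · rintro ⟨t, ht⟩
    exact ⟨t, ht.symm⟩
  · rintro ⟨t, ht⟩
    exact ⟨t, ht.symm⟩

theorem alptKumW_surjective (m : ℕ) (hm : m ≠ 0) : Function.Surjective (alptKumW N m hm) := by
  intro x
  obtain ⟨y, hy, hxy⟩ := alpf_exists_class hm ((Multiplicative.toAdd x :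
    ↥(Submodule.torsionBy ℤ (JZero N) (m : ℤ))) : JZero N)
    ((Submodule.mem_torsionBy_iff _ _).mp (Multiplicative.toAdd x).2)
  refine ⟨⟨y, hy⟩, ?_⟩
  apply Multiplicative.toAdd.injective
  apply Subtype.ext
  exact hxy

/-- `tkrSig` is the action of the semilinear automorphism `arithmeticGalois σ` on units -/
theorem alpt_tkrSig_eq (σ : GQ) (y : (↥(modularFunctionFieldBar N))ˣ) :
    tkrSig N σ y = alpfSmulUnit (arithmeticGalois (modularFunctionFieldFull N) σ) y := by
  apply Units.ext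
  rfl

/-- the Kummer map is Galois equivariant -/
theorem alptKumW_sig (m : ℕ) (hm : m ≠ 0) (σ : GQ) (y : tWsub Kbar N m) :
    Multiplicative.toAdd (alptKumW N m hm (tdmSigW N m σ y)) =
      σ • Multiplicative.toAdd (alptKumW N m hm y) := by
  apply Subtype.ext
  rw [alpfTorsAction_coe, alptKumW_coe, alptKumW_coe, galois_smul_pic0_def, alpfClass_smul hm]
  congr 1

section X

/-- the kernel of `Ψ` is contained in the kernel of the Kummer map -/
theorem alpt_ker_le (m : ℕ) (hm : m ≠ 0) :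
    ((tddDict Kbar N).psi hm).ker ≤ (alptKumW N m hm).ker := by
  intro y hy
  rw [(tddDescent N).psi_ker_eq hm] at hy
  rw [MonoidHom.mem_ker]
  exact (alptKumW_eq_one_iff N m hm y).mpr hy

/-- **the Kummer isomorphism** `X_m → J₀(N)[m]` -/
noncomputable def alptKumX (m : ℕ) (hm : m ≠ 0) :
    tdmX N m →* Multiplicative ↥(Submodule.torsionBy ℤ (JZero N) (m : ℤ)) :=
  ((tddDict Kbar N).psi hm).liftOfSurjective ((tddDescent N).psi_surjective hm)
    ⟨alptKumW N m hm, alpt_ker_le N m hm⟩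

theorem alptKumX_psi (m : ℕ) (hm : m ≠ 0) (y : tWsub Kbar N m) :
    alptKumX N m hm ((tddDict Kbar N).psi hm y) = alptKumW N m hm y :=
  MonoidHom.liftOfRightInverse_comp_apply _ _ _ _ y

theorem alptKumX_injective (m : ℕ) (hm : m ≠ 0) : Function.Injective (alptKumX N m hm) := by
  rw [injective_iff_map_eq_one]
  intro χ hχ
  obtain ⟨y, rfl⟩ := (tddDescent N).psi_surjective hm χ
  rw [alptKumX_psi, alptKumW_eq_one_iff, ← (tddDescent N).psi_ker_eq hm] at hχ
  exact hχ

theorem alptKumX_surjective (m : ℕ) (hm : m ≠ 0) : Function.Surjective (alptKumX N m hm) := by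
  intro x
  obtain ⟨y, rfl⟩ := alptKumW_surjective N m hm x
  exact ⟨(tddDict Kbar N).psi hm y, alptKumX_psi N m hm y⟩

/-- the Kummer isomorphism intertwines the transported Galois action on `X_m` with the Galois
action on `J₀(N)[m]` -/
theorem alptKumX_gal (m : ℕ) (hm : m ≠ 0) (σ : GQ) (χ : tdmX N m) :
    Multiplicative.toAdd (alptKumX N m hm ((tddDescent N).galX hm σ χ)) =
      σ • Multiplicative.toAdd (alptKumX N m hm χ) := by
  obtain ⟨y, rfl⟩ := (tddDescent N).psi_surjective hm χ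
  rw [(tddDescent N).galX_psi, alptKumX_psi, alptKumX_psi, alptKumW_sig]

end X

end Modular

end Fermat.Agent.Alpha
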