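/-
ALPHA / S32 package (d) (helper4), part 2: **the explicit Tate module package of `J₀(N)`**.

`TT = parabolicHoms ℤ_p Γ₀(N) ℤ_p` with the EXPLICIT Galois action `alptGal p N` (the one hidden in
the existential `TePackage p N` of S30) and the Hecke action `tdmHeckeP p N`:
* `alpt_package`            : (H1)–(H6) for the explicit triple;
* `alptKummer p N k`        : `TT →+ J₀(N)[p^k]`, with kernel `p^k TT` (`alptKummer_eq_zero_iff`)
  and `G_ℚ`-equivariant (`alptKummer_gal`).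
So `TT / p^k TT ↪ J₀(N)[p^k]` as Galois modules.
-/
import Fermat.Agent.Lib.Alpha.Tate.Kummer
import Fermat.Agent.Lib.T1.Mono.Final
import Fermat.Agent.Lib.T1.Dict.DescentSurj
import Fermat.Agent.Lib.T1.Kron.K3Bridge
import Fermat.Agent.Lib.T1.S18.AllLevels

set_option autoImplicit false
set_option linter.style.haveILetI false
set_option linter.unusedSectionVars false

namespace Fermat.Agent.Alpha

open Complex Set Filter Topology Matrix MatrixGroups CongruenceSubgroup ModularCurve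
open UpperHalfPlane hiding I
open Fermat.Agent.S24Lib ModularCurve.Period
open AlgebraicCurve Fermat.Agent.T1

local notation "Kbar" => AlgebraicClosure ℚ
local notation "GQ" => (AlgebraicClosure ℚ ≃ₐ[ℚ] AlgebraicClosure ℚ)

noncomputable section

variable (p : ℕ) [hp : Fact p.Prime] (N : ℕ) [NeZero N]

/-- **the Galois action on the Tate module** `parabolicHoms ℤ_p Γ₀(N) ℤ_p` -/
def alptGal : GQ →* Module.End ℤ_[p] ↥(parabolicHoms ℤ_[p] (Gamma0 N) ℤ_[p]) :=
  (tdmTowerN p N).action ((tddDescent N).galW p) ((tddDescent N).galW_compat p)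

theorem alptGal_ι (σ : GQ) (x : ↥(parabolicHoms ℤ_[p] (Gamma0 N) ℤ_[p])) (k : ℕ) :
    (tdmTowerN p N).ι k (alptGal p N σ x) = (tddDescent N).galW p k σ ((tdmTowerN p N).ι k x) :=
  (tdmTowerN p N).ι_action ((tddDescent N).galW p) ((tddDescent N).galW_compat p) σ x k

/-! ### The Kummer map on the Tate module -/

omit hp in
theorem alpt_mem_cast (k : ℕ) (y : JZero N) :
    y ∈ Submodule.torsionBy ℤ (JZero N) ((p ^ k : ℕ) : ℤ) ↔
      y ∈ Submodule.torsionBy ℤ (JZero N) ((p : ℤ) ^ k) := by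
  rw [Nat.cast_pow]

/-- the identification `J₀(N)[(p^k : ℕ)] = J₀(N)[(p : ℤ)^k]` -/
def alptCast (k : ℕ) :
    ↥(Submodule.torsionBy ℤ (JZero N) ((p ^ k : ℕ) : ℤ)) ≃+
      ↥(Submodule.torsionBy ℤ (JZero N) ((p : ℤ) ^ k)) where
  toFun x := ⟨(x : JZero N), (alpt_mem_cast p N k _).mp x.2⟩
  invFun x := ⟨(x : JZero N), (alpt_mem_cast p N k _).mpr x.2⟩
  left_inv x := rfl
  right_inv x := rfl
  map_add' x y := rfl

theorem alptCast_coe (k : ℕ) (x : ↥(Submodule.torsionBy ℤ (JZero N) ((p ^ k : ℕ) : ℤ))) :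
    ((alptCast p N k x : ↥(Submodule.torsionBy ℤ (JZero N) ((p : ℤ) ^ k))) : JZero N) =
      (x : JZero N) := rfl

theorem alptCast_smul (k : ℕ) (σ : GQ)
    (x : ↥(Submodule.torsionBy ℤ (JZero N) ((p ^ k : ℕ) : ℤ))) :
    alptCast p N k (σ • x) = σ • alptCast p N k x := rfl

/-- **the Kummer map** `TT → J₀(N)[p^k]` -/
def alptKummer (k : ℕ) : ↥(parabolicHoms ℤ_[p] (Gamma0 N) ℤ_[p]) →+
    ↥(Submodule.torsionBy ℤ (JZero N) ((p : ℤ) ^ k)) :=
  ((alptCast p N k).toAddMonoidHom.comp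
    (MonoidHom.toAdditiveLeft (alptKumX N (p ^ k) (tdm_prime_pow_ne_zero p k)))).comp
    ((tdmTowerN p N).ι k)

theorem alptKummer_apply (k : ℕ) (x : ↥(parabolicHoms ℤ_[p] (Gamma0 N) ℤ_[p])) :
    alptKummer p N k x = alptCast p N k (Multiplicative.toAdd
      (alptKumX N (p ^ k) (tdm_prime_pow_ne_zero p k)
        (Additive.toMul ((tdmTowerN p N).ι k x)))) := rfl

/-- the kernel of the Kummer map is `p^k TT` -/
theorem alptKummer_eq_zero_iff (k : ℕ) (x : ↥(parabolicHoms ℤ_[p] (Gamma0 N) ℤ_[p])) :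
    alptKummer p N k x = 0 ↔
      ∃ w : ↥(parabolicHoms ℤ_[p] (Gamma0 N) ℤ_[p]), x = (p : ℤ_[p]) ^ k • w := by
  constructor
  · intro h
    apply (tdmTowerN p N).exists_of_ι_eq_zero k x
    rw [alptKummer_apply] at h
    have h1 := (alptCast p N k).injective (h.trans (map_zero (alptCast p N k)).symm)
    have h2 : alptKumX N (p ^ k) (tdm_prime_pow_ne_zero p k)
        (Additive.toMul ((tdmTowerN p N).ι k x)) = 1 := Multiplicative.toAdd.injective h1
    have h3 := alptKumX_injective N (p ^ k) (tdm_prime_pow_ne_zero p k)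
      (h2.trans (map_one _).symm)
    exact Additive.toMul.injective h3
  · rintro ⟨w, rfl⟩
    rw [alptKummer, AddMonoidHom.comp_apply, (tdmTowerN p N).ι_pow_smul, map_zero]

/-- **the Kummer map is Galois equivariant** -/
theorem alptKummer_gal (k : ℕ) (σ : GQ) (x : ↥(parabolicHoms ℤ_[p] (Gamma0 N) ℤ_[p])) :
    alptKummer p N k (alptGal p N σ x) = σ • alptKummer p N k x := by
  rw [alptKummer_apply, alptKummer_apply, alptGal_ι, (tddDescent N).galW_apply p, ← alptCast_smul]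
  congr 1
  exact alptKumX_gal N (p ^ k) (tdm_prime_pow_ne_zero p k) σ _

/-- the induced injection `TT / p^k TT ↪ J₀(N)[p^k]`, elementwise form -/
theorem alptKummer_eq_iff (k : ℕ) (x y : ↥(parabolicHoms ℤ_[p] (Gamma0 N) ℤ_[p])) :
    alptKummer p N k x = alptKummer p N k y ↔
      ∃ w : ↥(parabolicHoms ℤ_[p] (Gamma0 N) ℤ_[p]), x - y = (p : ℤ_[p]) ^ k • w := by
  rw [← alptKummer_eq_zero_iff, map_sub, sub_eq_zero]

end

end Fermat.Agent.Alpha
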